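import Mathlib

set_option autoImplicit false

namespace Fermat.Agent.S51b.NT

/-- Auxiliary: a relation `a * c4 ^ 3 = 5 ^ e * b * Δ` with `e ∈ {1, 2}` and `a`, `b` prime to `5`
contradicts semistability at `5`. -/
theorem endgame_aux5 (c4 Δ : ℤ)
    (hss : ∀ p : ℕ, p.Prime → (p : ℤ) ∣ Δ → ¬ (p : ℤ) ∣ c4)
    (a b : ℤ) (ha : ¬ (5 : ℤ) ∣ a) (hb : ¬ (5 : ℤ) ∣ b)
    (h : a * c4 ^ 3 = 5 * b * Δ ∨ a * c4 ^ 3 = 25 * b * Δ) : False := by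
  have hp5 : Prime (5 : ℤ) := Int.prime_iff_natAbs_prime.mpr (by norm_num)
  have h5 : (5 : ℤ) ∣ a * c4 ^ 3 := by
    rcases h with h | h
    · exact ⟨b * Δ, by rw [h]; ring⟩
    · exact ⟨5 * b * Δ, by rw [h]; ring⟩
  have hc4 : (5 : ℤ) ∣ c4 := by
    rcases hp5.dvd_or_dvd h5 with h' | h'
    · exact absurd h' ha
    · exact hp5.dvd_of_dvd_pow h'
  obtain ⟨k, hk⟩ := hc4
  have hbΔ : (5 : ℤ) ∣ b * Δ := by
    rcases h with h | h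
    · refine ⟨5 * a * k ^ 3, ?_⟩
      rw [hk] at h
      linarith [show a * (5 * k) ^ 3 = 125 * (a * k ^ 3) by ring,
        show 5 * (5 * a * k ^ 3) = 25 * (a * k ^ 3) by ring,
        show 5 * b * Δ = 5 * (b * Δ) by ring]
    · refine ⟨a * k ^ 3, ?_⟩
      rw [hk] at h
      linarith [show a * (5 * k) ^ 3 = 125 * (a * k ^ 3) by ring,
        show 25 * b * Δ = 25 * (b * Δ) by ring]
  have hΔ5 : (5 : ℤ) ∣ Δ := by
    rcases hp5.dvd_or_dvd hbΔ with h' | h'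
    · exact absurd h' hb
    · exact h'
  exact hss 5 Nat.prime_five (by exact_mod_cast hΔ5) (by exact_mod_cast (⟨k, hk⟩ : (5 : ℤ) ∣ c4))

/-- Auxiliary: `12493` is not a square. -/
theorem endgame_aux_nonsq (c6 : ℤ) (h : c6 ^ 2 = 12493) : False := by
  have h1 : c6 ≤ 111 ∨ 112 ≤ c6 := by omega
  have h2 : -111 ≤ c6 ∨ c6 ≤ -112 := by omega
  rcases h1 with h1 | h1
  · rcases h2 with h2 | h2
    · nlinarith
    · nlinarith
  · nlinarith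

/-- Auxiliary: the case `t = -8`. -/
theorem endgame_aux11 (c4 c6 Δ : ℤ) (hΔ : Δ ≠ 0) (hrel : 1728 * Δ = c4 ^ 3 - c6 ^ 2)
    (hss : ∀ p : ℕ, p.Prime → (p : ℤ) ∣ Δ → ¬ (p : ℤ) ∣ c4)
    (h : 8 * c4 ^ 3 = 1331 * Δ) : False := by
  have hp11 : Prime (11 : ℤ) := Int.prime_iff_natAbs_prime.mpr (by norm_num)
  have h11 : (11 : ℤ) ∣ 8 * c4 ^ 3 := ⟨121 * Δ, by rw [h]; ring⟩
  have hc4 : (11 : ℤ) ∣ c4 := by
    rcases hp11.dvd_or_dvd h11 with h' | h'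
    · exact absurd h' (by norm_num)
    · exact hp11.dvd_of_dvd_pow h'
  obtain ⟨k, hk⟩ := hc4
  have hΔk : Δ = 8 * k ^ 3 := by
    rw [hk] at h
    linarith [show 8 * (11 * k) ^ 3 = 1331 * (8 * k ^ 3) by ring]
  have hk0 : k ≠ 0 := by
    rintro rfl
    apply hΔ
    rw [hΔk]; ring
  have hk1 : k.natAbs = 1 := by
    by_contra hne
    obtain ⟨p, hp, hpk⟩ := Nat.exists_prime_and_dvd hne
    have hpk' : (p : ℤ) ∣ k := Int.natCast_dvd.mpr hpk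
    refine hss p hp ?_ ?_
    · rw [hΔk]
      exact Dvd.dvd.mul_left (dvd_pow hpk' (by norm_num)) 8
    · rw [hk]
      exact Dvd.dvd.mul_left hpk' 11
  have hk2 : k = 1 ∨ k = -1 := by omega
  rcases hk2 with rfl | rfl
  · rw [hk, hΔk] at hrel
    nlinarith [sq_nonneg c6]
  · rw [hk, hΔk] at hrel
    exact endgame_aux_nonsq c6 (by linarith)

/-- None of the five exceptional values of `t` is compatible with semistability. -/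
theorem endgame (c4 c6 Δ : ℤ) (hΔ : Δ ≠ 0) (hrel : 1728 * Δ = c4 ^ 3 - c6 ^ 2)
    (hss : ∀ p : ℕ, p.Prime → (p : ℤ) ∣ Δ → ¬ (p : ℤ) ∣ c4)
    (t : ℚ) (ht : t = -10 ∨ t = -40 ∨ t = -25 / 8 ∨ t = -25 / 2 ∨ t = -8)
    (hj : (c4 : ℚ) ^ 3 * t = (Δ : ℚ) * (t ^ 2 + 10 * t + 5) ^ 3) : False := by
  rcases ht with rfl | rfl | rfl | rfl | rfl
  · have hQ : ((-2 : ℤ) : ℚ) * (c4 : ℚ) ^ 3 = 25 * ((1 : ℤ) : ℚ) * (Δ : ℚ) := by
      push_cast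
      linear_combination (1 / 5 : ℚ) * hj
    have hZ : (-2 : ℤ) * c4 ^ 3 = 25 * 1 * Δ := by exact_mod_cast hQ
    exact endgame_aux5 c4 Δ hss (-2) 1 (by norm_num) (by norm_num) (Or.inr hZ)
  · have hQ : ((-8 : ℤ) : ℚ) * (c4 : ℚ) ^ 3 = 25 * ((241 ^ 3 : ℤ) : ℚ) * (Δ : ℚ) := by
      push_cast
      linear_combination (1 / 5 : ℚ) * hj
    have hZ : (-8 : ℤ) * c4 ^ 3 = 25 * (241 ^ 3) * Δ := by exact_mod_cast hQ
    exact endgame_aux5 c4 Δ hss (-8) (241 ^ 3) (by norm_num) (by norm_num) (Or.inr hZ)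
  · have hQ : ((2 ^ 15 : ℤ) : ℚ) * (c4 : ℚ) ^ 3 = 5 * ((211 ^ 3 : ℤ) : ℚ) * (Δ : ℚ) := by
      push_cast
      linear_combination (-(2 ^ 18 / 25) : ℚ) * hj
    have hZ : (2 ^ 15 : ℤ) * c4 ^ 3 = 5 * (211 ^ 3) * Δ := by exact_mod_cast hQ
    exact endgame_aux5 c4 Δ hss (2 ^ 15) (211 ^ 3) (by norm_num) (by norm_num) (Or.inl hZ)
  · have hQ : ((-32 : ℤ) : ℚ) * (c4 : ℚ) ^ 3 = 5 * ((29 ^ 3 : ℤ) : ℚ) * (Δ : ℚ) := by
      push_cast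
      linear_combination (64 / 25 : ℚ) * hj
    have hZ : (-32 : ℤ) * c4 ^ 3 = 5 * (29 ^ 3) * Δ := by exact_mod_cast hQ
    exact endgame_aux5 c4 Δ hss (-32) (29 ^ 3) (by norm_num) (by norm_num) (Or.inl hZ)
  · have hQ : (8 : ℚ) * (c4 : ℚ) ^ 3 = 1331 * (Δ : ℚ) := by
      linear_combination (-1 : ℚ) * hj
    have hZ : (8 : ℤ) * c4 ^ 3 = 1331 * Δ := by exact_mod_cast hQ
    exact endgame_aux11 c4 c6 Δ hΔ hrel hss hZ

end Fermat.Agent.S51b.NT
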