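import Mathlib

set_option autoImplicit false

namespace Fermat.Agent.S51b.NT

/-- If `(m' g)(n' g)` is a nonzero square with `m'`, `n'` coprime, then `m'`, `n'` are squares
up to a common sign. -/
theorem classesInt_aux_cop (m' n' g Z : ℤ) (hg : 0 < g) (hco : IsCoprime m' n') (hZ : Z ≠ 0)
    (h : (m' * g) * (n' * g) = Z ^ 2) :
    ∃ ε M N : ℤ, (ε = 1 ∨ ε = -1) ∧ m' = ε * M ^ 2 ∧ n' = ε * N ^ 2 := by
  have hgZ : g ∣ Z := by
    have h2 : g ^ 2 ∣ Z ^ 2 := ⟨m' * n', by rw [← h]; ring⟩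
    exact (Int.pow_dvd_pow_iff two_ne_zero).1 h2
  obtain ⟨z, rfl⟩ := hgZ
  have hg0 : g ≠ 0 := ne_of_gt hg
  have hz : z ≠ 0 := by
    rintro rfl
    exact hZ (by ring)
  have hmn : m' * n' = z ^ 2 := by
    have h3 : g ^ 2 * (m' * n') = g ^ 2 * z ^ 2 := by rw [← mul_pow, ← h]; ring
    exact mul_left_cancel₀ (pow_ne_zero 2 hg0) h3
  have hzpos : 0 < z ^ 2 := by positivity
  obtain ⟨a, ha⟩ := Int.sq_of_isCoprime hco hmn
  obtain ⟨b, hb⟩ := Int.sq_of_isCoprime hco.symm (by rw [mul_comm]; exact hmn)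
  rcases ha with ha | ha <;> rcases hb with hb | hb
  · exact ⟨1, a, b, Or.inl rfl, by rw [ha]; ring, by rw [hb]; ring⟩
  · exfalso
    have h4 : z ^ 2 = -(a * b) ^ 2 := by rw [← hmn, ha, hb]; ring
    have h5 := sq_nonneg (a * b)
    linarith
  · exfalso
    have h4 : z ^ 2 = -(a * b) ^ 2 := by rw [← hmn, ha, hb]; ring
    have h5 := sq_nonneg (a * b)
    linarith
  · exact ⟨-1, a, b, Or.inr rfl, by rw [ha]; ring, by rw [hb]; ring⟩

/-- Splitting off the gcd of two integers whose product is a nonzero square. -/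
theorem classesInt_aux_split (m n Z : ℤ) (hZ : Z ≠ 0) (h : m * n = Z ^ 2) :
    ∃ ε g M N : ℤ, (ε = 1 ∨ ε = -1) ∧ 0 < g ∧ g ∣ m ∧ g ∣ n ∧
      m = ε * g * M ^ 2 ∧ n = ε * g * N ^ 2 := by
  have hm : m ≠ 0 := by
    rintro rfl
    apply hZ
    have h0 : Z ^ 2 = 0 := by rw [← h]; ring
    exact pow_eq_zero_iff (two_ne_zero) |>.1 h0
  have hgpos : 0 < Int.gcd m n := Int.gcd_pos_of_ne_zero_left n hm
  obtain ⟨m', n', hco, hm', hn'⟩ := Int.exists_gcd_one hgpos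
  have hg0 : (0 : ℤ) < (Int.gcd m n : ℤ) := by exact_mod_cast hgpos
  have hco' : IsCoprime m' n' := Int.isCoprime_iff_gcd_eq_one.2 hco
  obtain ⟨ε, M, N, hε, hM, hN⟩ :=
    classesInt_aux_cop m' n' (Int.gcd m n : ℤ) Z hg0 hco' hZ (by rw [← hm', ← hn']; exact h)
  refine ⟨ε, (Int.gcd m n : ℤ), M, N, hε, hg0, Int.gcd_dvd_left .., Int.gcd_dvd_right .., ?_, ?_⟩
  · calc m = m' * (Int.gcd m n : ℤ) := hm'
      _ = ε * (Int.gcd m n : ℤ) * M ^ 2 := by rw [hM]; ring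
  · calc n = n' * (Int.gcd m n : ℤ) := hn'
      _ = ε * (Int.gcd m n : ℤ) * N ^ 2 := by rw [hN]; ring

/-- The gcd of `A² - e²` and `A² - 81 e²` divides `80` when `A`, `e` are coprime. -/
theorem classesInt_aux_dvd80 (A e g : ℤ) (hc : IsCoprime A e)
    (h1 : g ∣ A ^ 2 - e ^ 2) (h2 : g ∣ A ^ 2 - 81 * e ^ 2) : g ∣ 80 := by
  have hc2 : IsCoprime (A ^ 2) (e ^ 2) := hc.pow
  obtain ⟨u, v, huv⟩ := hc2
  have he : g ∣ 80 * e ^ 2 := by
    have : 80 * e ^ 2 = (A ^ 2 - e ^ 2) - (A ^ 2 - 81 * e ^ 2) := by ring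
    rw [this]; exact dvd_sub h1 h2
  have hA : g ∣ 80 * A ^ 2 := by
    have : 80 * A ^ 2 = 81 * (A ^ 2 - e ^ 2) - (A ^ 2 - 81 * e ^ 2) := by ring
    rw [this]; exact dvd_sub (dvd_mul_of_dvd_right h1 _) h2
  have : (80 : ℤ) = u * (80 * A ^ 2) + v * (80 * e ^ 2) := by
    linear_combination (-80 : ℤ) * huv
  rw [this]
  exact dvd_add (dvd_mul_of_dvd_right hA _) (dvd_mul_of_dvd_right he _)

/-- Positive divisors of `80` are `d₀ f²` with `d₀ ∈ {1, 2, 5, 10}`. -/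
theorem classesInt_aux_div80 (g : ℤ) (hg : 0 < g) (h : g ∣ 80) :
    ∃ d f : ℤ, (d = 1 ∨ d = 2 ∨ d = 5 ∨ d = 10) ∧ g = d * f ^ 2 := by
  have hle : g ≤ 80 := Int.le_of_dvd (by norm_num) h
  have hcases : g = 1 ∨ g = 2 ∨ g = 4 ∨ g = 5 ∨ g = 8 ∨ g = 10 ∨ g = 16 ∨ g = 20 ∨ g = 40 ∨
      g = 80 := by
    interval_cases g <;> omega
  rcases hcases with rfl | rfl | rfl | rfl | rfl | rfl | rfl | rfl | rfl | rfl
  · exact ⟨1, 1, Or.inl rfl, by norm_num⟩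
  · exact ⟨2, 1, Or.inr (Or.inl rfl), by norm_num⟩
  · exact ⟨1, 2, Or.inl rfl, by norm_num⟩
  · exact ⟨5, 1, Or.inr (Or.inr (Or.inl rfl)), by norm_num⟩
  · exact ⟨2, 2, Or.inr (Or.inl rfl), by norm_num⟩
  · exact ⟨10, 1, Or.inr (Or.inr (Or.inr rfl)), by norm_num⟩
  · exact ⟨1, 4, Or.inl rfl, by norm_num⟩
  · exact ⟨5, 2, Or.inr (Or.inr (Or.inl rfl)), by norm_num⟩
  · exact ⟨10, 2, Or.inr (Or.inr (Or.inr rfl)), by norm_num⟩
  · exact ⟨5, 4, Or.inr (Or.inr (Or.inl rfl)), by norm_num⟩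

/-- The square of an odd integer is `1` mod `8`. -/
theorem classesInt_aux_oddsq (x : ℤ) (hx : x % 2 = 1) : ∃ k : ℤ, x ^ 2 = 8 * k + 1 := by
  obtain ⟨q, hq⟩ : ∃ q : ℤ, x = 8 * q + 1 ∨ x = 8 * q + 3 ∨ x = 8 * q + 5 ∨ x = 8 * q + 7 := by
    refine ⟨x / 8, ?_⟩
    omega
  rcases hq with rfl | rfl | rfl | rfl
  · exact ⟨8 * q ^ 2 + 2 * q, by ring⟩
  · exact ⟨8 * q ^ 2 + 6 * q + 1, by ring⟩
  · exact ⟨8 * q ^ 2 + 10 * q + 3, by ring⟩
  · exact ⟨8 * q ^ 2 + 14 * q + 6, by ring⟩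

/-- If `δ` is odd and `4 ∣ δ M²` then `M` is even. -/
theorem classesInt_aux_even (δ M k : ℤ) (hδ : δ % 2 = 1) (h : δ * M ^ 2 = 4 * k) :
    ∃ M₁ : ℤ, M = 2 * M₁ := by
  rcases Int.emod_two_eq_zero_or_one M with hM | hM
  · exact ⟨M / 2, by omega⟩
  · exfalso
    have hM2 : M ^ 2 % 2 = 1 := by
      rw [pow_two, Int.mul_emod, hM]; norm_num
    have h1 : (δ * M ^ 2) % 2 = 1 := by
      rw [Int.mul_emod, hδ, hM2]; norm_num
    rw [h] at h1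
    omega

/-- A square is `0` or `1` mod `4`. -/
theorem classesInt_aux_sq4 (x : ℤ) : x ^ 2 % 4 = 0 ∨ x ^ 2 % 4 = 1 := by
  have hx : x % 4 = 0 ∨ x % 4 = 1 ∨ x % 4 = 2 ∨ x % 4 = 3 := by omega
  rcases hx with hx | hx | hx | hx <;>
    · rw [pow_two, Int.mul_emod, hx]; norm_num

/-- The even classes are impossible (2-adic step). -/
theorem classesInt_aux_noeven (A e δ M N : ℤ) (hc : IsCoprime A e) (hδ : δ % 2 = 1)
    (h1 : A ^ 2 - e ^ 2 = 2 * δ * M ^ 2) (h2 : A ^ 2 - 81 * e ^ 2 = 2 * δ * N ^ 2) : False := by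
  -- parity of `A` and `e`
  have hAe : A % 2 = 1 ∧ e % 2 = 1 := by
    rcases Int.emod_two_eq_zero_or_one A with hA | hA <;>
      rcases Int.emod_two_eq_zero_or_one e with he | he
    · exfalso
      obtain ⟨u, v, huv⟩ := hc
      have hA' : (2 : ℤ) ∣ A := Int.dvd_of_emod_eq_zero hA
      have he' : (2 : ℤ) ∣ e := Int.dvd_of_emod_eq_zero he
      have : (2 : ℤ) ∣ 1 := by
        rw [← huv]
        exact dvd_add (dvd_mul_of_dvd_right hA' _) (dvd_mul_of_dvd_right he' _)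
      omega
    · exfalso
      have hA2 : A ^ 2 % 2 = 0 := by rw [pow_two, Int.mul_emod, hA]; norm_num
      have he2 : e ^ 2 % 2 = 1 := by rw [pow_two, Int.mul_emod, he]; norm_num
      have h3 : (2 * δ * M ^ 2) % 2 = 0 := by rw [mul_assoc]; exact Int.mul_emod_right _ _
      omega
    · exfalso
      have hA2 : A ^ 2 % 2 = 1 := by rw [pow_two, Int.mul_emod, hA]; norm_num
      have he2 : e ^ 2 % 2 = 0 := by rw [pow_two, Int.mul_emod, he]; norm_num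
      have h3 : (2 * δ * M ^ 2) % 2 = 0 := by rw [mul_assoc]; exact Int.mul_emod_right _ _
      omega
    · exact ⟨hA, he⟩
  obtain ⟨k, hk⟩ := classesInt_aux_oddsq A hAe.1
  obtain ⟨l, hl⟩ := classesInt_aux_oddsq e hAe.2
  have hM4 : δ * M ^ 2 = 4 * (k - l) := by linarith
  have hN4 : δ * N ^ 2 = 4 * (k - 81 * l - 10) := by linarith
  obtain ⟨M₁, rfl⟩ := classesInt_aux_even δ M _ hδ hM4
  obtain ⟨N₁, rfl⟩ := classesInt_aux_even δ N _ hδ hN4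
  have hM5 : δ * M₁ ^ 2 = k - l := by linarith
  have hN5 : δ * N₁ ^ 2 = k - 81 * l - 10 := by linarith
  have hD : δ * (M₁ ^ 2 - N₁ ^ 2) = 80 * l + 10 := by linarith
  have hD4 : (δ * (M₁ ^ 2 - N₁ ^ 2)) % 4 = 2 := by rw [hD]; omega
  have hδ4 : δ % 4 = 1 ∨ δ % 4 = 3 := by omega
  have hMs := classesInt_aux_sq4 M₁
  have hNs := classesInt_aux_sq4 N₁
  have hdiff : (M₁ ^ 2 - N₁ ^ 2) % 4 = 0 ∨ (M₁ ^ 2 - N₁ ^ 2) % 4 = 1 ∨
      (M₁ ^ 2 - N₁ ^ 2) % 4 = 3 := by omega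
  rw [Int.mul_emod] at hD4
  rcases hδ4 with hδ4 | hδ4 <;> rcases hdiff with hd | hd | hd <;>
    · rw [hδ4, hd] at hD4; norm_num at hD4

/-- The 2-descent classes: `d ∈ {1, -1, 5, -5}` (2-adic step). -/
theorem classes_int (A e Z : ℤ) (hA : 0 < A) (he : 0 < e) (hc : IsCoprime A e) (hZ : Z ≠ 0)
    (h : (A ^ 2 - e ^ 2) * (A ^ 2 - 81 * e ^ 2) = Z ^ 2) :
    ∃ d M N : ℤ, (d = 1 ∨ d = -1 ∨ d = 5 ∨ d = -5) ∧
      A ^ 2 - e ^ 2 = d * M ^ 2 ∧ A ^ 2 - 81 * e ^ 2 = d * N ^ 2 := by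
  have _ := hA
  have _ := he
  obtain ⟨ε, g, M, N, hε, hg, hgm, hgn, hm, hn⟩ := classesInt_aux_split _ _ Z hZ h
  have hg80 : g ∣ 80 := classesInt_aux_dvd80 A e g hc hgm hgn
  obtain ⟨d, f, hd, rfl⟩ := classesInt_aux_div80 g hg hg80
  have hm' : A ^ 2 - e ^ 2 = (ε * d) * (f * M) ^ 2 := by rw [hm]; ring
  have hn' : A ^ 2 - 81 * e ^ 2 = (ε * d) * (f * N) ^ 2 := by rw [hn]; ring
  rcases hd with rfl | rfl | rfl | rfl
  · refine ⟨ε * 1, f * M, f * N, ?_, hm', hn'⟩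
    rcases hε with rfl | rfl <;> norm_num
  · exfalso
    refine classesInt_aux_noeven A e ε (f * M) (f * N) hc ?_ ?_ ?_
    · rcases hε with rfl | rfl <;> norm_num
    · rw [hm']; ring
    · rw [hn']; ring
  · refine ⟨ε * 5, f * M, f * N, ?_, hm', hn'⟩
    rcases hε with rfl | rfl <;> norm_num
  · exfalso
    refine classesInt_aux_noeven A e (ε * 5) (f * M) (f * N) hc ?_ ?_ ?_
    · rcases hε with rfl | rfl <;> norm_num
    · rw [hm']; ring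
    · rw [hn']; ring

end Fermat.Agent.S51b.NT
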