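import Mathlib

set_option autoImplicit false

namespace Fermat.Agent.S51b.NT

/-- Integer form of a rational point with `y ≠ 0` on `y² = x(x-1)(x-81)`:
the denominator of `x` is a square `e²` and the numerator `a` satisfies an integer equation. -/
theorem int_form (x y : ℚ) (h : y ^ 2 = x * (x - 1) * (x - 81)) (hy : y ≠ 0) :
    ∃ a e Y : ℤ, 0 < e ∧ IsCoprime a e ∧ Y ≠ 0 ∧ x = (a : ℚ) / (e : ℚ) ^ 2 ∧
      a * (a - e ^ 2) * (a - 81 * e ^ 2) = Y ^ 2 := by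
  obtain ⟨p, hp⟩ : ∃ p : ℤ, p = x.num := ⟨_, rfl⟩
  obtain ⟨q, hq⟩ : ∃ q : ℤ, q = (x.den : ℤ) := ⟨_, rfl⟩
  have hqpos : 0 < q := by
    rw [hq]; exact_mod_cast x.den_pos
  have hqne : q ≠ 0 := hqpos.ne'
  have hqQ : (q : ℚ) ≠ 0 := by exact_mod_cast hqne
  have hxq : x * (q : ℚ) = (p : ℚ) := by
    rw [hp, hq]; exact_mod_cast Rat.mul_den_eq_num x
  have hcop : IsCoprime p q := by
    rw [hp, hq]; exact Rat.isCoprime_num_den x
  -- the integer N = q * (p (p - q) (p - 81 q)) is a rational square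
  have hN : ((q * (p * (p - q) * (p - 81 * q)) : ℤ) : ℚ) = (y * (q : ℚ) ^ 2) * (y * (q : ℚ) ^ 2) := by
    push_cast
    rw [← hxq]
    linear_combination (-(q : ℚ) ^ 4) * h
  have hsq : IsSquare (q * (p * (p - q) * (p - 81 * q)) : ℤ) := by
    rw [← Rat.isSquare_intCast_iff]
    exact ⟨_, hN⟩
  obtain ⟨W, hW⟩ := hsq
  have hWne : W ≠ 0 := by
    rintro rfl
    rw [hW] at hN
    have h0 : (y * (q : ℚ) ^ 2) * (y * (q : ℚ) ^ 2) = 0 := by
      rw [← hN]; simp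
    have h1 : y * (q : ℚ) ^ 2 = 0 := by
      rcases mul_eq_zero.mp h0 with h1 | h1 <;> exact h1
    rcases mul_eq_zero.mp h1 with h2 | h2
    · exact hy h2
    · exact hqQ (pow_eq_zero_iff (two_ne_zero) |>.mp h2)
  -- coprimality
  obtain ⟨u, v, huv⟩ := hcop
  have hc1 : IsCoprime q p := ⟨v, u, by linarith⟩
  have hc2 : IsCoprime q (p - q) := ⟨v + u, u, by linear_combination huv⟩
  have hc3 : IsCoprime q (p - 81 * q) := ⟨v + 81 * u, u, by linear_combination huv⟩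
  have hc : IsCoprime q (p * (p - q) * (p - 81 * q)) := (hc1.mul_right hc2).mul_right hc3
  obtain ⟨e0, he0⟩ := Int.sq_of_isCoprime hc (by rw [hW]; ring : q * (p * (p - q) * (p - 81 * q)) = W ^ 2)
  have hqe0 : q = e0 ^ 2 := by
    rcases he0 with he0 | he0
    · exact he0
    · exfalso; nlinarith [sq_nonneg e0]
  have hqe : q = |e0| ^ 2 := by rw [sq_abs]; exact hqe0
  have he0ne : e0 ≠ 0 := by
    rintro rfl
    exact hqne (by rw [hqe0]; ring)
  have hepos : 0 < |e0| := abs_pos.mpr he0ne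
  obtain ⟨e, he⟩ : ∃ e : ℤ, e = |e0| := ⟨_, rfl⟩
  rw [← he] at hqe hepos
  have hene : e ≠ 0 := hepos.ne'
  -- e ∣ W
  have hdvd : e ∣ W := by
    have : e ^ 2 ∣ W ^ 2 := ⟨p * (p - q) * (p - 81 * q), by rw [← hqe, pow_two W, ← hW]⟩
    exact (Int.pow_dvd_pow_iff two_ne_zero).mp this
  obtain ⟨Y, hY⟩ := hdvd
  have hYne : Y ≠ 0 := by
    rintro rfl
    exact hWne (by rw [hY]; ring)
  refine ⟨p, e, Y, hepos, ⟨u, v * e, by rw [← huv, hqe]; ring⟩, hYne, ?_, ?_⟩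
  · have : (q : ℚ) = (e : ℚ) ^ 2 := by exact_mod_cast hqe
    rw [← this, ← hxq]
    field_simp
  · have h2 : e ^ 2 * (p * (p - e ^ 2) * (p - 81 * e ^ 2)) = e ^ 2 * Y ^ 2 := by
      rw [← hqe, hW, hY]; ring_nf
      rw [hqe]; ring
    exact mul_left_cancel₀ (pow_ne_zero 2 hene) h2

end Fermat.Agent.S51b.NT
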