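import Mathlib

set_option autoImplicit false

namespace Fermat.Agent.S51b.NT

theorem numSq_pos (a e Y : ℤ) (hY : Y ≠ 0)
    (h : a * (a - e ^ 2) * (a - 81 * e ^ 2) = Y ^ 2) : 0 < a := by
  have hY2 : 0 < Y ^ 2 := by positivity
  by_contra hneg'
  have hneg : a ≤ 0 := not_lt.mp hneg'
  have h1 : a - e ^ 2 ≤ 0 := by nlinarith [sq_nonneg e]
  have h2 : a - 81 * e ^ 2 ≤ 0 := by nlinarith [sq_nonneg e]
  have h3 : 0 ≤ (a - e ^ 2) * (a - 81 * e ^ 2) := mul_nonneg_of_nonpos_of_nonpos h1 h2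
  have h4 : a * ((a - e ^ 2) * (a - 81 * e ^ 2)) ≤ 0 :=
    mul_nonpos_of_nonpos_of_nonneg hneg h3
  nlinarith

theorem numSq_core (a b Y : ℤ) (ha : 0 < a) (hcop : IsCoprime a b) (h : a * b = Y ^ 2) :
    ∃ A : ℤ, 0 < A ∧ a = A ^ 2 := by
  obtain ⟨a0, h0 | h0⟩ := Int.sq_of_isCoprime hcop h
  · refine ⟨|a0|, ?_, ?_⟩
    · have h00 : a0 ≠ 0 := by
        rintro rfl
        simp at h0
        omega
      exact abs_pos.mpr h00
    · rw [sq_abs]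
      exact h0
  · exfalso
    nlinarith [sq_nonneg a0]

theorem numSq_div (c : ℤ) (hc : c ≠ 0) (X Y : ℤ) (h : c ^ 2 * X = Y ^ 2) :
    ∃ Y1 : ℤ, Y = c * Y1 ∧ X = Y1 ^ 2 := by
  have hd : c ^ 2 ∣ Y ^ 2 := ⟨X, h.symm⟩
  have hd' : c ∣ Y := (Int.pow_dvd_pow_iff (by norm_num)).mp hd
  obtain ⟨Y1, rfl⟩ := hd'
  refine ⟨Y1, rfl, ?_⟩
  have hc2 : c ^ 2 ≠ 0 := pow_ne_zero 2 hc
  apply mul_left_cancel₀ hc2
  rw [h]
  ring

theorem numSq_cop_sub_sq (a e m : ℤ) (hc : IsCoprime a e) :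
    IsCoprime a (m * a - e ^ 2) := by
  have h1 : IsCoprime a (-(e ^ 2)) := (hc.pow_right).neg_right
  have h2 := h1.add_mul_left_right m
  have e1 : -(e ^ 2) + a * m = m * a - e ^ 2 := by ring
  rw [e1] at h2
  exact h2

theorem numSq_not_dvd_e (a e : ℤ) (hc : IsCoprime a e) (h3 : (3 : ℤ) ∣ a) : ¬ (3 : ℤ) ∣ e := by
  intro h3e
  have hu : IsUnit (3 : ℤ) := hc.isUnit_of_dvd' h3 h3e
  rw [Int.isUnit_iff] at hu
  omega

theorem numSq_mod3 (a' e Y1 m n : ℤ) (ha : ¬ (3 : ℤ) ∣ a') (he : ¬ (3 : ℤ) ∣ e)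
    (h : a' * (3 * m * a' - e ^ 2) * (a' - 3 * n * e ^ 2) = Y1 ^ 2) : False := by
  have hz : ((a' : ZMod 3)) * (3 * m * a' - e ^ 2) * (a' - 3 * n * e ^ 2) = (Y1 : ZMod 3) ^ 2 := by
    exact_mod_cast congrArg (Int.cast : ℤ → ZMod 3) h
  have h30 : (3 : ZMod 3) = 0 := by decide
  rw [h30] at hz
  have ha' : (a' : ZMod 3) ≠ 0 := by
    intro h0
    exact ha ((ZMod.intCast_zmod_eq_zero_iff_dvd a' 3).mp h0)
  have he' : (e : ZMod 3) ≠ 0 := by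
    intro h0
    exact he ((ZMod.intCast_zmod_eq_zero_iff_dvd e 3).mp h0)
  simp only [zero_mul, zero_sub, sub_zero] at hz
  generalize (a' : ZMod 3) = x at hz ha'
  generalize (e : ZMod 3) = y at hz he'
  generalize (Y1 : ZMod 3) = z at hz
  revert x y z
  decide

theorem numSq_case_not3 (a e Y : ℤ) (ha : 0 < a) (hc : IsCoprime a e) (h3 : ¬ (3 : ℤ) ∣ a)
    (h : a * (a - e ^ 2) * (a - 81 * e ^ 2) = Y ^ 2) :
    ∃ A : ℤ, 0 < A ∧ a = A ^ 2 := by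
  have hc3 : IsCoprime a 3 := ((Int.prime_three).coprime_iff_not_dvd.mpr h3).symm
  have hc81 : IsCoprime a (81 * e ^ 2) := by
    have h1 : IsCoprime a ((3 : ℤ) ^ 4) := hc3.pow_right
    have h2 : IsCoprime a (e ^ 2) := hc.pow_right
    have h3 := h1.mul_right h2
    norm_num at h3
    exact h3
  have hA : IsCoprime a (a - e ^ 2) := by
    have := numSq_cop_sub_sq a e 1 hc
    rwa [one_mul] at this
  have hB : IsCoprime a (a - 81 * e ^ 2) := by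
    have h1 : IsCoprime a (-(81 * e ^ 2)) := hc81.neg_right
    have h2 := h1.add_mul_left_right 1
    have e1 : -(81 * e ^ 2) + a * 1 = a - 81 * e ^ 2 := by ring
    rw [e1] at h2
    exact h2
  have hAB : IsCoprime a ((a - e ^ 2) * (a - 81 * e ^ 2)) := hA.mul_right hB
  exact numSq_core a _ Y ha hAB (by rw [← h]; ring)

theorem numSq_case_81 (a1 e Y : ℤ) (ha : 0 < a1) (hc : IsCoprime (81 * a1) e)
    (h : (81 * a1) * (81 * a1 - e ^ 2) * (81 * a1 - 81 * e ^ 2) = Y ^ 2) :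
    ∃ A : ℤ, 0 < A ∧ 81 * a1 = A ^ 2 := by
  have hc1 : IsCoprime a1 e := hc.of_mul_left_right
  obtain ⟨Y1, -, hY1⟩ := numSq_div 81 (by norm_num) (a1 * ((81 * a1 - e ^ 2) * (a1 - e ^ 2))) Y
    (by rw [← h]; ring)
  have hA : IsCoprime a1 (81 * a1 - e ^ 2) := numSq_cop_sub_sq a1 e 81 hc1
  have hB : IsCoprime a1 (a1 - e ^ 2) := by
    have := numSq_cop_sub_sq a1 e 1 hc1
    rwa [one_mul] at this
  obtain ⟨A0, hA0, hA0'⟩ := numSq_core a1 _ Y1 ha (hA.mul_right hB) hY1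
  refine ⟨9 * A0, by positivity, ?_⟩
  rw [hA0']
  ring

/-- The numerator is a perfect square (3-adic step of the 2-descent). -/
theorem num_sq (a e Y : ℤ) (he : 0 < e) (hc : IsCoprime a e) (hY : Y ≠ 0)
    (h : a * (a - e ^ 2) * (a - 81 * e ^ 2) = Y ^ 2) :
    ∃ A : ℤ, 0 < A ∧ a = A ^ 2 := by
  have ha : 0 < a := numSq_pos a e Y hY h
  by_cases h3 : (3 : ℤ) ∣ a
  swap
  · exact numSq_case_not3 a e Y ha hc h3 h
  have h3e : ¬ (3 : ℤ) ∣ e := numSq_not_dvd_e a e hc h3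
  obtain ⟨a1, rfl⟩ := h3
  by_cases h31 : (3 : ℤ) ∣ a1
  swap
  · exfalso
    obtain ⟨Y1, -, hY1⟩ := numSq_div 3 (by norm_num)
      (a1 * (3 * 1 * a1 - e ^ 2) * (a1 - 3 * 9 * e ^ 2)) Y (by rw [← h]; ring)
    exact numSq_mod3 a1 e Y1 1 9 h31 h3e hY1
  obtain ⟨a2, rfl⟩ := h31
  by_cases h32 : (3 : ℤ) ∣ a2
  swap
  · exfalso
    obtain ⟨Y1, -, hY1⟩ := numSq_div 9 (by norm_num)
      (a2 * (3 * 3 * a2 - e ^ 2) * (a2 - 3 * 3 * e ^ 2)) Y (by rw [← h]; ring)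
    exact numSq_mod3 a2 e Y1 3 3 h32 h3e hY1
  obtain ⟨a3, rfl⟩ := h32
  by_cases h33 : (3 : ℤ) ∣ a3
  swap
  · exfalso
    obtain ⟨Y1, -, hY1⟩ := numSq_div 27 (by norm_num)
      (a3 * (3 * 9 * a3 - e ^ 2) * (a3 - 3 * 1 * e ^ 2)) Y (by rw [← h]; ring)
    exact numSq_mod3 a3 e Y1 9 1 h33 h3e hY1
  obtain ⟨a4, rfl⟩ := h33
  have e81 : (3 : ℤ) * (3 * (3 * (3 * a4))) = 81 * a4 := by ring
  rw [e81] at h hc ha ⊢
  have ha4 : 0 < a4 := by omega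
  exact numSq_case_81 a4 e Y ha4 hc h

end Fermat.Agent.S51b.NT
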