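import Mathlib
import Fermat.Agent.S51b.NT.IntForm
import Fermat.Agent.S51b.NT.NumSq
import Fermat.Agent.S51b.NT.ClassesInt

set_option autoImplicit false

namespace Fermat.Agent.S51b.NT

/-- 2-descent on `y² = x(x-1)(x-81)`: the class of a rational point with `y ≠ 0`
is one of the four classes of the 2-torsion points. -/
theorem classes (x y : ℚ) (h : y ^ 2 = x * (x - 1) * (x - 81)) (hy : y ≠ 0) :
    ∃ d r s t : ℚ, (d = 1 ∨ d = -1 ∨ d = 5 ∨ d = -5) ∧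
      x = r ^ 2 ∧ x - 1 = d * s ^ 2 ∧ x - 81 = d * t ^ 2 := by
  obtain ⟨a, e, Y, he, hc, hY, hx, hE⟩ := int_form x y h hy
  obtain ⟨A, hA, rfl⟩ := num_sq a e Y he hc hY hE
  have hA0 : A ≠ 0 := hA.ne'
  have hAY : A ∣ Y := by
    have h2 : A ^ 2 ∣ Y ^ 2 := ⟨(A ^ 2 - e ^ 2) * (A ^ 2 - 81 * e ^ 2), by rw [← hE]; ring⟩
    exact (Int.pow_dvd_pow_iff two_ne_zero).mp h2
  obtain ⟨Z, rfl⟩ := hAY
  have hZ : Z ≠ 0 := by
    rintro rfl
    exact hY (by ring)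
  have hE' : (A ^ 2 - e ^ 2) * (A ^ 2 - 81 * e ^ 2) = Z ^ 2 := by
    have h2 : A ^ 2 * ((A ^ 2 - e ^ 2) * (A ^ 2 - 81 * e ^ 2)) = A ^ 2 * Z ^ 2 := by
      linear_combination hE
    exact mul_left_cancel₀ (pow_ne_zero 2 hA0) h2
  have hc' : IsCoprime A e := (IsCoprime.pow_left_iff (by norm_num : 0 < 2)).mp hc
  obtain ⟨d, M, N, hd, hM, hN⟩ := classes_int A e Z hA he hc' hZ hE'
  have he0 : (e : ℚ) ≠ 0 := by exact_mod_cast he.ne'
  have hMq : (A : ℚ) ^ 2 - (e : ℚ) ^ 2 = (d : ℚ) * (M : ℚ) ^ 2 := by exact_mod_cast hM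
  have hNq : (A : ℚ) ^ 2 - 81 * (e : ℚ) ^ 2 = (d : ℚ) * (N : ℚ) ^ 2 := by exact_mod_cast hN
  refine ⟨(d : ℚ), (A : ℚ) / (e : ℚ), (M : ℚ) / (e : ℚ), (N : ℚ) / (e : ℚ), ?_, ?_, ?_, ?_⟩
  · rcases hd with rfl | rfl | rfl | rfl <;> simp
  · rw [hx]
    push_cast
    rw [div_pow]
  · rw [hx]
    push_cast
    field_simp
    linear_combination hMq
  · rw [hx]
    push_cast
    field_simp
    linear_combination hNq

end Fermat.Agent.S51b.NT
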