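import Mathlib

set_option autoImplicit false

namespace Fermat.Agent.S51b.NT

/-- `S1 x`: the three numbers `x`, `x - 1`, `x - 81` are nonzero rational squares
(i.e. `x` is the abscissa of a rational point of `y² = x(x-1)(x-81)` in the trivial
2-descent class, not 2-torsion). -/
def S1 (x : ℚ) : Prop :=
  ∃ r₁ r₂ r₃ : ℚ, r₁ ≠ 0 ∧ r₂ ≠ 0 ∧ r₃ ≠ 0 ∧ x = r₁ ^ 2 ∧ x - 1 = r₂ ^ 2 ∧ x - 81 = r₃ ^ 2

end Fermat.Agent.S51b.NT
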