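import Mathlib
import Fermat.Agent.S51b.NT.Defs

set_option autoImplicit false

namespace Fermat.Agent.S51b.NT

/-- A nonzero rational whose square is an integer gives a positive integer square root. -/
theorem S1Struct_int_of_sq (q : ℚ) (n : ℤ) (h : q ^ 2 = (n : ℚ)) (hq : q ≠ 0) :
    ∃ B : ℤ, 0 < B ∧ n = B ^ 2 := by
  have hsq : IsSquare ((n : ℤ) : ℚ) := ⟨q, by rw [← h, sq]⟩
  rw [Rat.isSquare_intCast_iff] at hsq
  obtain ⟨B₀, hB₀⟩ := hsq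
  have hn : n ≠ 0 := by
    rintro rfl
    apply hq
    have : q ^ 2 = 0 := by simpa using h
    exact pow_eq_zero_iff (two_ne_zero) |>.mp this
  have hB₀ne : B₀ ≠ 0 := by
    rintro rfl
    apply hn
    simpa using hB₀
  refine ⟨|B₀|, abs_pos.mpr hB₀ne, ?_⟩
  rw [sq_abs, hB₀, sq]

/-- The size bound: integer arithmetic. -/
theorem S1Struct_bound (A e B C : ℤ) (hA : 0 < A) (he : 0 < e) (hB : 0 < B) (hC : 0 < C)
    (h1 : A ^ 2 - e ^ 2 = B ^ 2) (h2 : A ^ 2 - 81 * e ^ 2 = C ^ 2) : 163 ≤ A := by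
  have h9 : 9 * e < A := by
    by_contra hcon
    rw [not_lt] at hcon
    nlinarith
  have hBA : B < A := by
    by_contra hcon
    rw [not_lt] at hcon
    nlinarith
  have he2 : 18 * e + 1 ≤ e ^ 2 := by nlinarith
  have he19 : 19 ≤ e := by
    by_contra hcon
    rw [not_le] at hcon
    nlinarith
  linarith

/-- Lowest-terms structure of an element of `S1`. -/
theorem S1_struct (x : ℚ) (hx : S1 x) :
    ∃ A e B C : ℤ, 163 ≤ A ∧ 0 < e ∧ 0 < B ∧ 0 < C ∧ IsCoprime A e ∧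
      x = (A : ℚ) ^ 2 / (e : ℚ) ^ 2 ∧ x.num = A ^ 2 ∧
      A ^ 2 - e ^ 2 = B ^ 2 ∧ A ^ 2 - 81 * e ^ 2 = C ^ 2 := by
  obtain ⟨r₁, r₂, r₃, h1, h2, h3, hx1, hx2, hx3⟩ := hx
  have hq : 0 < |r₁| := abs_pos.mpr h1
  have hA : 0 < |r₁|.num := Rat.num_pos.mpr hq
  have he : 0 < (|r₁|.den : ℤ) := by exact_mod_cast |r₁|.den_pos
  have heQ : ((|r₁|.den : ℤ) : ℚ) ≠ 0 := by exact_mod_cast he.ne'
  have hcop : IsCoprime |r₁|.num (|r₁|.den : ℤ) := Rat.isCoprime_num_den _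
  have hxq : x = |r₁| ^ 2 := by rw [sq_abs]; exact hx1
  have hqAe : |r₁| = (|r₁|.num : ℚ) / ((|r₁|.den : ℤ) : ℚ) := by
    rw [Int.cast_natCast]; exact (Rat.num_div_den _).symm
  have hxAe : x = (|r₁|.num : ℚ) ^ 2 / ((|r₁|.den : ℤ) : ℚ) ^ 2 := by
    rw [← div_pow, ← hqAe]; exact hxq
  have hnum : x.num = |r₁|.num ^ 2 := by rw [hxq, Rat.num_pow]
  have hB : ∃ B : ℤ, 0 < B ∧ |r₁|.num ^ 2 - (|r₁|.den : ℤ) ^ 2 = B ^ 2 := by
    apply S1Struct_int_of_sq (((|r₁|.den : ℤ) : ℚ) * r₂)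
    · rw [mul_pow, ← hx2, hxAe]; push_cast; field_simp
    · exact mul_ne_zero heQ h2
  have hC : ∃ C : ℤ, 0 < C ∧ |r₁|.num ^ 2 - 81 * (|r₁|.den : ℤ) ^ 2 = C ^ 2 := by
    apply S1Struct_int_of_sq (((|r₁|.den : ℤ) : ℚ) * r₃)
    · rw [mul_pow, ← hx3, hxAe]; push_cast; field_simp
    · exact mul_ne_zero heQ h3
  obtain ⟨B, hB0, hBeq⟩ := hB
  obtain ⟨C, hC0, hCeq⟩ := hC
  exact ⟨|r₁|.num, (|r₁|.den : ℤ), B, C, S1Struct_bound _ _ B C hA he hB0 hC0 hBeq hCeq,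
    he, hB0, hC0, hcop, hxAe, hnum, hBeq, hCeq⟩

end Fermat.Agent.S51b.NT
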