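import Mathlib
import Fermat.Agent.S51b.NT.Defs
import Fermat.Agent.S51b.NT.S1Struct
import Fermat.Agent.S51b.NT.Classes

set_option autoImplicit false

namespace Fermat.Agent.S51b.NT

/-- The numerator of `n / d` (in lowest terms) is at most `n`, for `n > 0`. -/
theorem S1Descent_num_le (n d : ℤ) (hn : 0 < n) (hd : d ≠ 0) :
    ((n : ℚ) / (d : ℚ)).num ≤ n := by
  rw [← Rat.divInt_eq_div]
  exact Int.le_of_dvd hn (Rat.num_dvd n hd)

/-- Rational core of the descent: from positive `r₁, r₂, r₃` with `r₁² - r₂² = 1` and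
`r₁² - r₃² = 81`, the number `z = (r₁ + r₂)(r₁ + r₃)` or `81 (z - 1) / (z - 81)` is in `S1`. -/
theorem S1Descent_core (r₁ r₂ r₃ : ℚ) (h1 : 0 < r₁) (h2 : 0 < r₂) (h3 : 0 < r₃)
    (h12 : r₁ ^ 2 - r₂ ^ 2 = 1) (h13 : r₁ ^ 2 - r₃ ^ 2 = 81) :
    S1 ((r₁ + r₂) * (r₁ + r₃)) ∨
      S1 (81 * ((r₁ + r₂) * (r₁ + r₃) - 1) / ((r₁ + r₂) * (r₁ + r₃) - 81)) := by
  set z : ℚ := (r₁ + r₂) * (r₁ + r₃) with hz
  have hz1 : z - 1 = (r₁ + r₂) * (r₂ + r₃) := by
    rw [hz]; linear_combination h12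
  have hz81 : z - 81 = (r₁ + r₃) * (r₂ + r₃) := by
    rw [hz]; linear_combination h13
  have hzpos : 0 < z := by rw [hz]; positivity
  have hz1pos : 0 < z - 1 := by rw [hz1]; positivity
  have hz81pos : 0 < z - 81 := by rw [hz81]; positivity
  set w : ℚ := (r₁ + r₂) * (r₁ + r₃) * (r₂ + r₃) with hw
  have hwpos : 0 < w := by rw [hw]; positivity
  have hweq : w ^ 2 = z * (z - 1) * (z - 81) := by
    rw [hz1, hz81, hw, hz]; ring
  obtain ⟨d, r, s, t, hd, hr, hs, ht⟩ := classes z w hweq hwpos.ne'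
  have hr0 : r ≠ 0 := by
    rintro rfl
    rw [hr] at hzpos
    norm_num at hzpos
  have hs0 : s ≠ 0 := by
    rintro rfl
    rw [hs] at hz1pos
    norm_num at hz1pos
  have ht0 : t ≠ 0 := by
    rintro rfl
    rw [ht] at hz81pos
    norm_num at hz81pos
  have hs2 : 0 < s ^ 2 := by positivity
  have hdpos : 0 < d := by
    by_contra hneg
    rw [not_lt] at hneg
    have : d * s ^ 2 ≤ 0 := mul_nonpos_of_nonpos_of_nonneg hneg hs2.le
    linarith
  rcases hd with rfl | rfl | rfl | rfl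
  · left
    exact ⟨r, s, t, hr0, hs0, ht0, hr, by rw [hs]; ring, by rw [ht]; ring⟩
  · norm_num at hdpos
  · right
    have hz81ne : z - 81 ≠ 0 := hz81pos.ne'
    refine ⟨9 * s / t, 4 * r / t, 36 / t, by positivity, by positivity, by positivity, ?_, ?_, ?_⟩
    · rw [hs, ht]; field_simp; ring
    · have e1 : 81 * (z - 1) / (z - 81) - 1 = 80 * z / (z - 81) := by
        field_simp; ring
      rw [e1, ht, hr]; field_simp; ring
    · have e1 : 81 * (z - 1) / (z - 81) - 81 = 6480 / (z - 81) := by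
        field_simp; ring
      rw [e1, ht]; field_simp; ring
  · norm_num at hdpos

/-- Descent step: every element of `S1` produces another one with smaller numerator. -/
theorem S1_descent (x : ℚ) (hx : S1 x) : ∃ x' : ℚ, S1 x' ∧ x'.num < x.num := by
  obtain ⟨A, e, B, C, hA, he, hB, hC, -, -, hnum, hAB, hAC⟩ := S1_struct x hx
  have hBA : B < A := by nlinarith
  have hCA : C < A := by nlinarith
  have heq : (e : ℚ) ≠ 0 := by exact_mod_cast he.ne'
  have hABq : (A : ℚ) ^ 2 - (e : ℚ) ^ 2 = (B : ℚ) ^ 2 := by exact_mod_cast hAB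
  have hACq : (A : ℚ) ^ 2 - 81 * (e : ℚ) ^ 2 = (C : ℚ) ^ 2 := by exact_mod_cast hAC
  have hABne : ((A - B : ℤ) : ℚ) ≠ 0 := by
    have : A - B ≠ 0 := by omega
    exact_mod_cast this
  have hABne' : (A : ℚ) - (B : ℚ) ≠ 0 := by exact_mod_cast hABne
  have heq' : 0 < (e : ℚ) := by exact_mod_cast he
  have hAq : 0 < (A : ℚ) := by
    have : 0 < A := by omega
    exact_mod_cast this
  have hBq : 0 < (B : ℚ) := by exact_mod_cast hB
  have hCq : 0 < (C : ℚ) := by exact_mod_cast hC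
  have key := S1Descent_core ((A : ℚ) / e) ((B : ℚ) / e) ((C : ℚ) / e)
    (by positivity) (by positivity) (by positivity)
    (by field_simp; linear_combination hABq)
    (by field_simp; linear_combination hACq)
  have hzeq : ((A : ℚ) / e + (B : ℚ) / e) * ((A : ℚ) / e + (C : ℚ) / e)
      = ((A + C : ℤ) : ℚ) / ((A - B : ℤ) : ℚ) := by
    push_cast
    field_simp
    linear_combination hABq
  have hxnum : 162 * A < x.num := by rw [hnum]; nlinarith
  rcases key with h | h
  · refine ⟨_, h, ?_⟩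
    rw [hzeq]
    have := S1Descent_num_le (A + C) (A - B) (by omega) (by omega)
    omega
  · refine ⟨_, h, ?_⟩
    have hz81pos : 0 < ((A + C : ℤ) : ℚ) / ((A - B : ℤ) : ℚ) - 81 := by
      rw [← hzeq]
      have e1 : ((A : ℚ) / e + (B : ℚ) / e) * ((A : ℚ) / e + (C : ℚ) / e) - 81
          = ((A : ℚ) / e + (C : ℚ) / e) * ((B : ℚ) / e + (C : ℚ) / e) := by
        field_simp
        linear_combination hACq
      rw [e1]; positivity
    have hDne : ((A + C - 81 * (A - B) : ℤ) : ℚ) ≠ 0 := by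
      intro h0
      have e2 : ((A + C : ℤ) : ℚ) / ((A - B : ℤ) : ℚ) - 81 = 0 := by
        rw [div_sub' hABne]
        push_cast at h0 ⊢
        rw [div_eq_zero_iff]; left
        linear_combination h0
      rw [e2] at hz81pos
      exact lt_irrefl _ hz81pos
    have hDne' : (A + C - 81 * (A - B) : ℤ) ≠ 0 := by exact_mod_cast hDne
    have hx'eq : 81 * (((A : ℚ) / e + (B : ℚ) / e) * ((A : ℚ) / e + (C : ℚ) / e) - 1) /
        (((A : ℚ) / e + (B : ℚ) / e) * ((A : ℚ) / e + (C : ℚ) / e) - 81)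
        = ((81 * (B + C) : ℤ) : ℚ) / ((A + C - 81 * (A - B) : ℤ) : ℚ) := by
      rw [hzeq]
      have hd2 : ((A + C : ℤ) : ℚ) / ((A - B : ℤ) : ℚ) - 81 ≠ 0 := hz81pos.ne'
      rw [div_eq_div_iff hd2 hDne]
      push_cast at hABne hDne hd2 ⊢
      field_simp
      ring
    rw [hx'eq]
    have := S1Descent_num_le (81 * (B + C)) (A + C - 81 * (A - B)) (by omega) hDne'
    omega

end Fermat.Agent.S51b.NT
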