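import Mathlib
import Fermat.Agent.S51b.NT.Defs
import Fermat.Agent.S51b.NT.Classes
import Fermat.Agent.S51b.NT.S1Descent

set_option autoImplicit false

namespace Fermat.Agent.S51b.NT

theorem noPoint_S1_num_pos (x : ℚ) (hx : S1 x) : 0 < x.num := by
  obtain ⟨r₁, r₂, r₃, h1, h2, h3, e1, e2, e3⟩ := hx
  rw [Rat.num_pos, e1]
  positivity

theorem S1_empty (x : ℚ) : ¬ S1 x := by
  intro hx
  have key : ∀ n : ℕ, ∀ x : ℚ, S1 x → x.num.toNat = n → False := by
    intro n
    induction n using Nat.strong_induction_on with
    | _ n ih =>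
      intro x hx hn
      obtain ⟨x', hx', hlt⟩ := S1_descent x hx
      have hpos' : 0 < x'.num := noPoint_S1_num_pos x' hx'
      exact ih x'.num.toNat (by omega) x' hx' rfl
  exact key _ x hx rfl

/-- `y² = x(x-1)(x-81)` has no rational point with `y ≠ 0` (the curve 15a2 has rank 0). -/
theorem no_point (x y : ℚ) (h : y ^ 2 = x * (x - 1) * (x - 81)) : y = 0 := by
  by_contra hy
  obtain ⟨d, r, s, t, hd, hr, hs, ht⟩ := classes x y h hy
  have hy2 : y ^ 2 ≠ 0 := pow_ne_zero 2 hy
  have hx0 : x ≠ 0 := by
    rintro rfl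
    apply hy2
    rw [h]
    ring
  have hx1 : x - 1 ≠ 0 := by
    intro h0
    apply hy2
    rw [h, h0]
    ring
  have hx81 : x - 81 ≠ 0 := by
    intro h0
    apply hy2
    rw [h, h0]
    ring
  have hr0 : r ≠ 0 := by
    rintro rfl
    apply hx0
    rw [hr]
    ring
  have hs0 : s ≠ 0 := by
    rintro rfl
    apply hx1
    rw [hs]
    ring
  have ht0 : t ≠ 0 := by
    rintro rfl
    apply hx81
    rw [ht]
    ring
  rcases hd with rfl | rfl | rfl | rfl
  · -- d = 1
    exact S1_empty x ⟨r, s, t, hr0, hs0, ht0, hr, by linarith, by linarith⟩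
  · -- d = -1
    refine S1_empty (81 / x) ⟨9 / r, t / r, 9 * s / r, by positivity, by positivity,
      by positivity, ?_, ?_, ?_⟩
    · rw [hr]
      field_simp
      norm_num
    · rw [div_pow, ← hr]
      field_simp
      linarith
    · rw [div_pow, ← hr]
      field_simp
      linear_combination (-81 : ℚ) * hs
  · -- d = 5
    refine S1_empty (81 * (x - 1) / (x - 81)) ⟨9 * s / t, 4 * r / t, 36 / t, by positivity,
      by positivity, by positivity, ?_, ?_, ?_⟩
    · rw [hs, ht]
      field_simp
      ring
    · have e : 81 * (x - 1) / (x - 81) - 1 = 80 * x / (x - 81) := by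
        field_simp
        ring
      rw [e, ht, hr]
      field_simp
      ring
    · have e : 81 * (x - 1) / (x - 81) - 81 = 6480 / (x - 81) := by
        field_simp
        ring
      rw [e, ht]
      field_simp
      ring
  · -- d = -5
    refine S1_empty ((x - 81) / (x - 1)) ⟨t / s, 4 / s, 4 * r / s, by positivity,
      by positivity, by positivity, ?_, ?_, ?_⟩
    · rw [hs, ht]
      field_simp
    · have e : (x - 81) / (x - 1) - 1 = -80 / (x - 1) := by
        field_simp
        ring
      rw [e, hs]
      field_simp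
      ring
    · have e : (x - 81) / (x - 1) - 81 = -80 * x / (x - 1) := by
        field_simp
        ring
      rw [e, hs, hr]
      field_simp
      ring

end Fermat.Agent.S51b.NT
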