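import Mathlib
import Fermat.Agent.S51b.NT.NoPoint

set_option autoImplicit false

namespace Fermat.Agent.S51b.NT

/-- Rational points of `Y² = X(X-16)(X+9)` (the curve 15a1 = X₀(15)). -/
theorem E_points (X Y : ℚ) (h : Y ^ 2 = X * (X - 16) * (X + 9)) :
    X = 0 ∨ X = 16 ∨ X = -9 ∨ X = 36 ∨ X = -4 := by
  by_cases h16 : X = 16
  · right; left; exact h16
  · have h16' : X - 16 ≠ 0 := sub_ne_zero.mpr h16
    have e1 : X * (X + 9) / (X - 16) - 1 = (X + 4) ^ 2 / (X - 16) := by
      field_simp
      ring
    have e2 : X * (X + 9) / (X - 16) - 81 = (X - 36) ^ 2 / (X - 16) := by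
      field_simp
      ring
    have key : (Y * (X + 4) * (X - 36) / (X - 16) ^ 2) ^ 2
        = (X * (X + 9) / (X - 16)) * (X * (X + 9) / (X - 16) - 1)
          * (X * (X + 9) / (X - 16) - 81) := by
      rw [e1, e2]
      have e3 : (Y * (X + 4) * (X - 36) / (X - 16) ^ 2) ^ 2
          = Y ^ 2 * ((X + 4) ^ 2 * (X - 36) ^ 2) / (X - 16) ^ 4 := by
        rw [div_pow, ← pow_mul]
        ring
      have e4 : X * (X + 9) / (X - 16) * ((X + 4) ^ 2 / (X - 16)) * ((X - 36) ^ 2 / (X - 16))
          = (X * (X - 16) * (X + 9)) * ((X + 4) ^ 2 * (X - 36) ^ 2) / (X - 16) ^ 4 := by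
        field_simp
      rw [e3, e4, h]
    have hy := no_point _ _ key
    have h4 : Y * (X + 4) * (X - 36) = 0 := by
      rcases div_eq_zero_iff.mp hy with h5 | h5
      · exact h5
      · exact absurd h5 (pow_ne_zero 2 h16')
    rcases mul_eq_zero.mp h4 with h5 | h5
    · rcases mul_eq_zero.mp h5 with h6 | h6
      · -- Y = 0
        rw [h6] at h
        have h7 : X * (X - 16) * (X + 9) = 0 := by linarith
        rcases mul_eq_zero.mp h7 with h8 | h8
        · rcases mul_eq_zero.mp h8 with h9 | h9
          · left; exact h9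
          · exact absurd h9 h16'
        · right; right; left; linarith
      · right; right; right; right; linarith
    · right; right; right; left; linarith

end Fermat.Agent.S51b.NT
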