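import Mathlib
import Fermat.Agent.S51b.NT.EPoints

set_option autoImplicit false

namespace Fermat.Agent.S51b.NT

/-- The rational solutions `(ρ, t)` of the modular relation. -/
theorem t_values (ρ t : ℚ) (hρ : ρ ≠ 0) (ht : t ≠ 0)
    (hR : 9 * ρ ^ 4 - 26 * ρ ^ 3 + 24 * ρ ^ 2 - 6 * ρ - 1 + (3 * ρ ^ 2 - 13 * ρ ^ 3) * t
      - ρ ^ 3 * t ^ 2 = 0) :
    t = -10 ∨ t = -40 ∨ t = -25 / 8 ∨ t = -25 / 2 ∨ t = -8 := by
  by_cases h1 : ρ = -1
  · subst h1
    right; right; right; right
    have h2 : (t + 8) ^ 2 = 0 := by linear_combination hR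
    have h3 : t + 8 = 0 := by simpa using h2
    linarith
  · have h1' : ρ + 1 ≠ 0 := fun h => h1 (by linarith)
    have key0 : (36 * ρ * (2 * ρ * t + 13 * ρ - 3)) ^ 2
        = (36 * ρ) * (36 * ρ - 16) * (36 * ρ + 9) * (ρ + 1) ^ 2 := by
      linear_combination (-5184 * ρ) * hR
    have key : (36 * ρ * (2 * ρ * t + 13 * ρ - 3) / (ρ + 1)) ^ 2
        = (36 * ρ) * (36 * ρ - 16) * (36 * ρ + 9) := by
      rw [div_pow, key0, mul_div_assoc, div_self (pow_ne_zero 2 h1'), mul_one]
    rcases E_points _ _ key with h | h | h | h | h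
    · exact absurd (by linarith : ρ = 0) hρ
    · have hρ' : ρ = 4 / 9 := by linarith
      subst hρ'
      right; right; left
      have h2 : (8 * t + 25) ^ 2 = 0 := by linear_combination (-729 : ℚ) * hR
      have h3 : 8 * t + 25 = 0 := by simpa using h2
      linarith
    · have hρ' : ρ = -1 / 4 := by linarith
      subst hρ'
      right; right; right; left
      have h2 : (2 * t + 25) ^ 2 = 0 := by linear_combination (256 : ℚ) * hR
      have h3 : 2 * t + 25 = 0 := by simpa using h2
      linarith
    · have hρ' : ρ = 1 := by linarith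
      subst hρ'
      left
      have h2 : t * (t + 10) = 0 := by linear_combination (-1 : ℚ) * hR
      rcases mul_eq_zero.mp h2 with h3 | h3
      · exact absurd h3 ht
      · linarith
    · have hρ' : ρ = -1 / 9 := by linarith
      subst hρ'
      right; left
      have h2 : t * (t + 40) = 0 := by linear_combination (729 : ℚ) * hR
      rcases mul_eq_zero.mp h2 with h3 | h3
      · exact absurd h3 ht
      · linarith

end Fermat.Agent.S51b.NT
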